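/-
S18 / S37, block ALG-b2 (helper153): DET-RANK lemma.  Mathlib only.

`R` a local ring whose maximal ideal is generated by `π`, `κ = R ⧸ 𝔪`, `H` a square matrix over `R`.
If a subspace `S ⊆ κ^n` is killed by `H mod 𝔪`, then `π ^ dim S ∣ det H`.
-/
import Mathlib

set_option autoImplicit false

namespace Fermat.Agent.S18.H153

open Module IsLocalRing Matrix

attribute [local instance] Ideal.Quotient.field

variable {R : Type*} [CommRing R] [IsLocalRing R]

/-- Auxiliary: the part of a subspace lying in a coordinate hyperplane has codimension `≤ 1`. -/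
theorem finrank_le_finrank_hyperplane_succ {K : Type*} [Field K] {n : Type*} [Fintype n]
    (S : Submodule K (n → K)) (j : n) :
    finrank K S ≤ finrank K (S ⊓ LinearMap.ker (LinearMap.proj j : (n → K) →ₗ[K] K) :
      Submodule K (n → K)) + 1 := by
  classical
  set φ : (n → K) →ₗ[K] K := LinearMap.proj j
  set ψ : S →ₗ[K] K := φ.comp S.subtype
  have h1 := LinearMap.finrank_range_add_finrank_ker ψ
  have h2 : finrank K (LinearMap.range ψ) ≤ 1 := by
    have := Submodule.finrank_le (LinearMap.range ψ)
    simpa using this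
  have h3 : finrank K (LinearMap.ker ψ) =
      finrank K (S ⊓ LinearMap.ker φ : Submodule K (n → K)) := by
    have hinj : Function.Injective S.subtype := S.injective_subtype
    have e := (Submodule.equivMapOfInjective S.subtype hinj (LinearMap.ker ψ)).finrank_eq
    rw [e]
    have hmap : Submodule.map S.subtype (LinearMap.ker ψ) = S ⊓ LinearMap.ker φ := by
      ext x
      simp only [Submodule.mem_map, LinearMap.mem_ker, Submodule.mem_inf, Submodule.subtype_apply,
        Subtype.exists, exists_and_right, exists_eq_right, ψ, LinearMap.comp_apply]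
      constructor
      · rintro ⟨hx, h⟩
        exact ⟨hx, h⟩
      · rintro ⟨hx, h⟩
        exact ⟨hx, h⟩
    rw [hmap]
  omega

/-- DET-RANK, inductive form. -/
theorem pow_dvd_det_of_le_finrank (π : R) (hπ : maximalIdeal R = Ideal.span {π})
    {n : Type*} [Fintype n] [DecidableEq n] :
    ∀ (c : ℕ) (H : Matrix n n R) (S : Submodule (R ⧸ maximalIdeal R) (n → R ⧸ maximalIdeal R)),
      (∀ s ∈ S, (H.map (Ideal.Quotient.mk (maximalIdeal R))) *ᵥ s = 0) →
      c ≤ finrank (R ⧸ maximalIdeal R) S → π ^ c ∣ H.det := by
  intro c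
  induction c with
  | zero => intro H S _ _; simp
  | succ c ih =>
    intro H S hS hc
    -- a nonzero vector in `S`
    have hpos : 0 < finrank (R ⧸ maximalIdeal R) S := by omega
    obtain ⟨⟨vbar, hvS⟩, hv0⟩ := (Module.finrank_pos_iff_exists_ne_zero).1 hpos
    have hv0' : vbar ≠ 0 := fun h => hv0 (by ext1; exact h)
    obtain ⟨j, hj⟩ : ∃ j, vbar j ≠ 0 := by
      by_contra hcon
      exact hv0' (funext fun i => by
        by_contra hi
        exact hcon ⟨i, hi⟩)
    -- lift it
    have hsurj : Function.Surjective (Ideal.Quotient.mk (maximalIdeal R)) :=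
      Ideal.Quotient.mk_surjective
    choose v hv using fun i => hsurj (vbar i)
    have hvj : IsUnit (v j) := by
      by_contra hnu
      have : v j ∈ maximalIdeal R := (mem_maximalIdeal _).2 hnu
      exact hj (by rw [← hv j]; exact Ideal.Quotient.eq_zero_iff_mem.2 this)
    -- `H v` is divisible by `π`
    have hHv : ∀ i, ∃ w, (H *ᵥ v) i = π * w := by
      intro i
      have h1 : Ideal.Quotient.mk (maximalIdeal R) ((H *ᵥ v) i) = 0 := by
        have := congrFun (hS vbar hvS) i
        rw [Pi.zero_apply] at this
        rw [← this]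
        simp only [mulVec, dotProduct, map_sum, map_mul, Matrix.map_apply, hv]
      have h2 : (H *ᵥ v) i ∈ maximalIdeal R := Ideal.Quotient.eq_zero_iff_mem.1 h1
      rw [hπ, Ideal.mem_span_singleton] at h2
      exact h2
    choose w hw using hHv
    -- column operation
    have hdet1 : (H.updateCol j (H *ᵥ v)).det = v j * H.det := by
      have := Matrix.det_updateCol_sum H j v
      simp only [smul_eq_mul] at this
      rw [← this]
      congr 1
      congr 1
      ext k
      simp [mulVec, dotProduct, mul_comm]
    have hdet2 : (H.updateCol j (H *ᵥ v)).det = π * (H.updateCol j w).det := by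
      have : H *ᵥ v = π • w := by
        ext i; simp [hw i]
      rw [this, Matrix.det_updateCol_smul]
    -- induction hypothesis for the new matrix
    set S' : Submodule (R ⧸ maximalIdeal R) (n → R ⧸ maximalIdeal R) :=
      S ⊓ LinearMap.ker (LinearMap.proj j : (n → R ⧸ maximalIdeal R) →ₗ[R ⧸ maximalIdeal R] _)
    have hS' : ∀ s ∈ S', ((H.updateCol j w).map (Ideal.Quotient.mk (maximalIdeal R))) *ᵥ s = 0 := by
      intro s hs
      have hsS : s ∈ S := hs.1
      have hsj : s j = 0 := by simpa using hs.2
      rw [← hS s hsS]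
      ext i
      simp only [mulVec, dotProduct, Matrix.map_apply]
      refine Finset.sum_congr rfl fun k _ => ?_
      by_cases hk : k = j
      · subst hk; simp [hsj]
      · simp [Matrix.updateCol_ne hk]
    have hc' : c ≤ finrank (R ⧸ maximalIdeal R) S' := by
      have h4 : finrank (R ⧸ maximalIdeal R) S ≤ finrank (R ⧸ maximalIdeal R) S' + 1 :=
        finrank_le_finrank_hyperplane_succ S j
      omega
    have hih := ih (H.updateCol j w) S' hS' hc'
    have h3 : π ^ (c + 1) ∣ v j * H.det := by
      rw [← hdet1, hdet2, pow_succ']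
      exact mul_dvd_mul_left π hih
    exact (hvj.dvd_mul_left).1 h3

/-- DET-RANK: if `H mod 𝔪` kills the subspace `S`, then `π ^ dim S ∣ det H`. -/
theorem pow_finrank_dvd_det (π : R) (hπ : maximalIdeal R = Ideal.span {π})
    {n : Type*} [Fintype n] [DecidableEq n] (H : Matrix n n R)
    (S : Submodule (R ⧸ maximalIdeal R) (n → R ⧸ maximalIdeal R))
    (hS : ∀ s ∈ S, (H.map (Ideal.Quotient.mk (maximalIdeal R))) *ᵥ s = 0) :
    π ^ finrank (R ⧸ maximalIdeal R) S ∣ H.det :=
  pow_dvd_det_of_le_finrank π hπ _ H S hS le_rfl

end Fermat.Agent.S18.H153
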