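/-
S18 / S37, block ALG-b2 (helper153): in characteristic 0 the radical of the trace form of a
finite-dimensional commutative algebra is contained in the nilradical.  Mathlib only.
-/
import Mathlib

set_option autoImplicit false

namespace Fermat.Agent.S18.H153

open Module

/-- In characteristic `0`: an element `x` of a finite-dimensional commutative algebra with
`Tr(x y) = 0` for all `y` is nilpotent. -/
theorem isNilpotent_of_forall_trace_mul_eq_zero {K : Type*} [Field K] [CharZero K]
    {A : Type*} [CommRing A] [Algebra K A] [Module.Finite K A] (x : A)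
    (hx : ∀ y : A, Algebra.trace K A (x * y) = 0) : IsNilpotent x := by
  have : IsArtinianRing A := IsArtinianRing.of_finite K A
  obtain ⟨n, y, hy⟩ := IsArtinian.exists_pow_succ_smul_dvd (M := A) x (1 : A)
  simp only [smul_eq_mul, mul_one] at hy
  -- relation `x^N = x^(N+1) * y` with `N = n+1 ≥ 1`
  have hN : x ^ (n + 1) = x ^ (n + 1 + 1) * y := by
    calc x ^ (n + 1) = x * x ^ n := by ring
      _ = x * (x ^ (n + 1) * y) := by rw [hy]
      _ = x ^ (n + 1 + 1) * y := by ring
  -- hence `x^N = x^(N+j) * y^j`
  have hj : ∀ j : ℕ, x ^ (n + 1) = x ^ (n + 1 + j) * y ^ j := by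
    intro j
    induction j with
    | zero => simp
    | succ j ih =>
      calc x ^ (n + 1) = x ^ (n + 1 + j) * y ^ j := ih
        _ = x ^ j * x ^ (n + 1) * y ^ j := by ring
        _ = x ^ j * (x ^ (n + 1 + 1) * y) * y ^ j := by rw [← hN]
        _ = x ^ (n + 1 + (j + 1)) * y ^ (j + 1) := by ring
  set e : A := x ^ (n + 1) * y ^ (n + 1) with he
  have hxe : e * x ^ (n + 1) = x ^ (n + 1) := by
    have := hj (n + 1)
    calc e * x ^ (n + 1) = x ^ (n + 1 + (n + 1)) * y ^ (n + 1) := by rw [he]; ring
      _ = x ^ (n + 1) := this.symm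
  have hee : e * e = e := by
    calc e * e = (e * x ^ (n + 1)) * y ^ (n + 1) := by rw [he]; ring
      _ = e := by rw [hxe]
  have htr : Algebra.trace K A e = 0 := by
    have : e = x * (x ^ n * y ^ (n + 1)) := by rw [he]; ring
    rw [this]
    exact hx _
  -- the multiplication by `e` is an idempotent endomorphism of trace zero
  have hidem : IsIdempotentElem (Algebra.lmul K A e) := by
    change Algebra.lmul K A e * Algebra.lmul K A e = Algebra.lmul K A e
    rw [← map_mul, hee]
  have h0 : Algebra.lmul K A e = 0 := by
    apply LinearMap.IsIdempotentElem.eq_zero_of_trace_eq_zero hidem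
    rw [← Algebra.trace_apply]
    exact htr
  have he0 : e = 0 := by
    have := congrArg (fun f : A →ₗ[K] A => f 1) h0
    simpa using this
  refine ⟨n + 1, ?_⟩
  rw [← hxe, he0, zero_mul]

end Fermat.Agent.S18.H153
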