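/-
S18 / S37, block ALG-b2, piece b2.3 TAME (helper153): SATURATION of the trace form.  Mathlib only.

`R` a DVR with uniformizer `π` and residue field of characteristic 0, `T` a finite free `R`-algebra
which is an integrally closed domain.  Then `T` is a PID and

  `(∀ c, π^(k+1) ∣ Tr(a c))  →  π^k ∣ a`          (`pow_dvd_of_pow_succ_dvd_trace`)

i.e. `π · T^∨ ⊆ T` for the trace dual `T^∨`.  In particular the trace form is non-degenerate.
-/
import Mathlib
import Fermat.Agent.S18.H153.TraceNil

set_option autoImplicit false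

namespace Fermat.Agent.S18.H153

open Module IsLocalRing

attribute [local instance] Ideal.Quotient.field

section PID

variable (R : Type*) [CommRing R] [IsDomain R] [IsDiscreteValuationRing R]
variable (T : Type*) [CommRing T] [IsDomain T] [IsIntegrallyClosed T] [Algebra R T]
  [Module.Finite R T]

include R in
/-- A normal domain finite over a DVR is a Dedekind domain. -/
theorem isDedekindDomain_of_finite_dvr : IsDedekindDomain T := by
  have h1 : IsNoetherianRing T :=
    isNoetherian_of_tower R (isNoetherian_of_isNoetherianRing_of_finite R T)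
  have h2 : Algebra.IsIntegral R T := Algebra.IsIntegral.of_finite R T
  have h3 : Ring.DimensionLEOne T := Ring.DimensionLEOne.of_isIntegral R T
  have h4 : IsIntegralClosure T T (FractionRing T) := inferInstance
  exact { }

include R in
/-- A normal domain finite over a DVR is a principal ideal domain. -/
theorem isPrincipalIdealRing_of_finite_dvr : IsPrincipalIdealRing T := by
  have hD : IsDedekindDomain T := isDedekindDomain_of_finite_dvr R T
  have h2 : Algebra.IsIntegral R T := Algebra.IsIntegral.of_finite R T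
  apply IsPrincipalIdealRing.of_finite_primes
  have hfin : ((maximalIdeal R).primesOver T).Finite :=
    Algebra.QuasiFinite.finite_primesOver (maximalIdeal R)
  refine (hfin.union (Set.finite_singleton (⊥ : Ideal T))).subset ?_
  intro P hP
  have hP' : P.IsPrime := hP
  by_cases h0 : P = ⊥
  · right; exact h0
  · left
    refine ⟨hP', ⟨?_⟩⟩
    have hc : (P.comap (algebraMap R T)).IsPrime := Ideal.comap_isPrime _ _
    have hne : P.comap (algebraMap R T) ≠ ⊥ := Ideal.IsIntegral.comap_ne_bot R h0
    exact (eq_maximalIdeal (hc.isMaximal hne)).symm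

end PID

section Sat

variable {R : Type*} [CommRing R] [IsDomain R] [IsDiscreteValuationRing R]
variable {T : Type*} [CommRing T] [Algebra R T] [Module.Free R T] [Module.Finite R T]

/-- If `Tr(a c) ∈ 𝔪` for all `c`, then `a` is nilpotent modulo `π` (residue characteristic 0). -/
theorem exists_pow_dvd_of_dvd_trace [CharZero (R ⧸ maximalIdeal R)]
    (π : R) (hπ : Irreducible π) (a : T)
    (h : ∀ c : T, π ∣ Algebra.trace R T (a * c)) : ∃ N : ℕ, algebraMap R T π ∣ a ^ N := by
  have hmax := hπ.maximalIdeal_eq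
  have hfin : Module.Finite (R ⧸ maximalIdeal R) (T ⧸ (maximalIdeal R).map (algebraMap R T)) :=
    Module.Finite.of_restrictScalars_finite R _ _
  have hnil : IsNilpotent (Ideal.Quotient.mk ((maximalIdeal R).map (algebraMap R T)) a) := by
    apply isNilpotent_of_forall_trace_mul_eq_zero (K := R ⧸ maximalIdeal R)
    intro y
    obtain ⟨c, rfl⟩ := Ideal.Quotient.mk_surjective y
    rw [← map_mul, Algebra.trace_quotient_mk, Ideal.Quotient.eq_zero_iff_mem, hmax,
      Ideal.mem_span_singleton]
    exact h c
  obtain ⟨N, hN⟩ := hnil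
  refine ⟨N, ?_⟩
  rw [← map_pow, Ideal.Quotient.eq_zero_iff_mem, hmax, Ideal.map_span, Set.image_singleton,
    Ideal.mem_span_singleton] at hN
  exact hN

variable [IsDomain T] [IsIntegrallyClosed T]

/-- The case `k = 1` of saturation. -/
theorem dvd_of_sq_dvd_trace [CharZero (R ⧸ maximalIdeal R)]
    (π : R) (hπ : Irreducible π) (a : T)
    (h : ∀ c : T, π ^ 2 ∣ Algebra.trace R T (a * c)) : algebraMap R T π ∣ a := by
  have hPID : IsPrincipalIdealRing T := isPrincipalIdealRing_of_finite_dvr R T
  have hinj : Function.Injective (algebraMap R T) := FaithfulSMul.algebraMap_injective R T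
  set p := algebraMap R T π with hp
  have hp0 : p ≠ 0 := by
    intro h0
    exact hπ.ne_zero (hinj (by rw [← hp, h0, map_zero]))
  obtain ⟨g, hg⟩ : ∃ g, Ideal.span {a, p} = Ideal.span {g} :=
    (IsPrincipalIdealRing.principal (Ideal.span {a, p})).principal
  have hga : g ∣ a := by
    rw [← Ideal.mem_span_singleton, ← hg]; exact Ideal.subset_span (by simp)
  have hgp : g ∣ p := by
    rw [← Ideal.mem_span_singleton, ← hg]; exact Ideal.subset_span (by simp)
  obtain ⟨a', ha'⟩ := hga
  obtain ⟨p', hp'⟩ := hgp
  have hg0 : g ≠ 0 := by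
    rintro rfl
    rw [zero_mul] at hp'
    exact hp0 hp'
  have hgmem : g ∈ Ideal.span {a, p} := by rw [hg]; exact Ideal.mem_span_singleton_self g
  obtain ⟨u, v, huv⟩ := Ideal.mem_span_pair.1 hgmem
  have hcop : IsCoprime a' p' := by
    refine ⟨u, v, ?_⟩
    apply mul_left_cancel₀ hg0
    calc g * (u * a' + v * p') = u * (g * a') + v * (g * p') := by ring
      _ = u * a + v * p := by rw [← ha', ← hp']
      _ = g * 1 := by rw [huv, mul_one]
  have htr : ∀ c, π ∣ Algebra.trace R T (a' * c) := by
    intro c
    have h1 := h (p' * c)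
    have h2 : a * (p' * c) = π • (a' * c) := by
      rw [Algebra.smul_def, ← hp, hp', ha']; ring
    rw [h2, map_smul, smul_eq_mul, pow_two] at h1
    exact (mul_dvd_mul_iff_left hπ.ne_zero).1 h1
  obtain ⟨N, hN⟩ := exists_pow_dvd_of_dvd_trace π hπ a' htr
  have h3 : p' ∣ a' ^ N := dvd_trans ⟨g, by rw [← hp, hp']; ring⟩ hN
  have h4 : IsUnit p' := (hcop.symm.pow_right (n := N)).isUnit_of_dvd h3
  obtain ⟨w, hw⟩ := h4.exists_left_inv
  refine ⟨w * a', ?_⟩
  calc a = g * a' := ha'
    _ = g * (w * p') * a' := by rw [hw, mul_one]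
    _ = p * (w * a') := by rw [hp']; ring

/-- SATURATION: if `π^(k+1)` divides `Tr(a c)` for all `c`, then `π^k` divides `a`. -/
theorem pow_dvd_of_pow_succ_dvd_trace [CharZero (R ⧸ maximalIdeal R)]
    (π : R) (hπ : Irreducible π) :
    ∀ (k : ℕ) (a : T), (∀ c : T, π ^ (k + 1) ∣ Algebra.trace R T (a * c)) →
      algebraMap R T π ^ k ∣ a := by
  intro k
  induction k with
  | zero => intro a _; simp
  | succ k ih =>
    intro a h
    have h1 : ∀ c, π ^ (k + 1) ∣ Algebra.trace R T (a * c) := fun c =>
      dvd_trans (pow_dvd_pow π (by omega)) (h c)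
    obtain ⟨a₁, ha₁⟩ := ih a h1
    have h2 : ∀ c, π ^ 2 ∣ Algebra.trace R T (a₁ * c) := by
      intro c
      have h3 := h c
      have e : a * c = (π ^ k) • (a₁ * c) := by
        rw [Algebra.smul_def, map_pow, ha₁]; ring
      rw [e, map_smul, smul_eq_mul, show k + 1 + 1 = k + 2 by ring, pow_add] at h3
      exact (mul_dvd_mul_iff_left (pow_ne_zero _ hπ.ne_zero)).1 h3
    obtain ⟨a₂, ha₂⟩ := dvd_of_sq_dvd_trace π hπ a₁ h2
    exact ⟨a₂, by rw [ha₁, ha₂]; ring⟩

end Sat

end Fermat.Agent.S18.H153
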