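/-
S18 / S37, block ALG-b2, piece b2.3 TAME (helper153): the tame discriminant formula in residue
characteristic 0.  Pure commutative algebra, Mathlib only.

`R` a DVR with residue field `κ = R ⧸ 𝔪` of characteristic 0, `T` a finite free `R`-algebra which is
an integrally closed domain, `b` an `R`-basis of `T`.  Then

  `v(disc b) + dim_κ (T/𝔪T)_red ≤ rank_R T`      (`tame_discr_add_redDim_le`)

and in fact equality (`tame_discr_add_redDim_eq`).  The lower bound

  `rank_R T ≤ v(disc b) + dim_κ (T/𝔪T)_red`      (`le_discr_add_redDim`)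

holds for ANY finite free algebra over ANY DVR.

This is piece (α) of origin/helper636:coord/S18-b2-helper636.md, (L_A) of
origin/helper97:coord/S37-helper97.md, and b2.3 of origin/helper933:coord/S18-b2-helper933.md; the
left-hand side is literally `addVal (discr b) + redDim R T` of `Fermat.Agent.S18.H636`
(after unfolding `redDim`, `Fib`).
-/
import Mathlib
import Fermat.Agent.S18.H153.DetRank
import Fermat.Agent.S18.H153.TraceNil
import Fermat.Agent.S18.H153.Sat

set_option autoImplicit false

namespace Fermat.Agent.S18.H153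

open Module IsLocalRing Matrix

attribute [local instance] Ideal.Quotient.field

section Generic

variable {A : Type*} [CommRing A] {B : Type*} [CommRing B] [Algebra A B]
variable {ι : Type*} [Fintype ι]

/-- The trace pairing of `∑ v i • b i` with `b j` is the `j`-th entry of `G v`. -/
theorem trace_sum_smul_mul_basis (b : Basis ι A B) (v : ι → A) (j : ι) :
    Algebra.trace A B ((∑ i, v i • b i) * b j) = (Algebra.traceMatrix A b *ᵥ v) j := by
  simp only [Finset.sum_mul, map_sum, smul_mul_assoc, map_smul, smul_eq_mul, mulVec, dotProduct,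
    Algebra.traceMatrix_apply, Algebra.traceForm_apply]
  refine Finset.sum_congr rfl fun i _ => ?_
  rw [mul_comm (b j) (b i), mul_comm]

/-- If `x` divides all `Tr(a * b j)`, it divides all `Tr(a * c)`. -/
theorem dvd_trace_mul_of_forall_basis (b : Basis ι A B) (x : A) (a : B)
    (h : ∀ j, x ∣ Algebra.trace A B (a * b j)) (c : B) : x ∣ Algebra.trace A B (a * c) := by
  have hc : c = ∑ j, b.repr c j • b j := (b.sum_repr c).symm
  rw [hc, Finset.mul_sum, map_sum]
  refine Finset.dvd_sum fun j _ => ?_
  rw [mul_smul_comm, map_smul, smul_eq_mul]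
  exact Dvd.dvd.mul_left (h j) _

end Generic

section Reduction

variable {R : Type*} [CommRing R] [IsLocalRing R]
variable {T : Type*} [CommRing T] [Algebra R T] [Module.Free R T] [Module.Finite R T]
variable {ι : Type*} [Fintype ι] [DecidableEq ι]

omit [DecidableEq ι] in
/-- The trace matrix of the reduced basis is the reduction of the trace matrix. -/
theorem traceMatrix_basisQuotient (b : Basis ι R T) :
    Algebra.traceMatrix (R ⧸ maximalIdeal R) (basisQuotient b) =
      (Algebra.traceMatrix R b).map (Ideal.Quotient.mk (maximalIdeal R)) := by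
  ext i j
  simp only [Algebra.traceMatrix_apply, Algebra.traceForm_apply, basisQuotient_apply,
    Matrix.map_apply, ← map_mul, Algebra.trace_quotient_mk]

/-- (char 0) The kernel of the reduced trace matrix has dimension at most that of the
nilradical of the special fibre: `ρ ≤ rank Ḡ`. -/
theorem redDim_le_finrank_range [CharZero (R ⧸ maximalIdeal R)] (b : Basis ι R T) :
    finrank (R ⧸ maximalIdeal R)
        ((T ⧸ (maximalIdeal R).map (algebraMap R T)) ⧸
          nilradical (T ⧸ (maximalIdeal R).map (algebraMap R T))) ≤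
      finrank (R ⧸ maximalIdeal R)
        (LinearMap.range ((Algebra.traceMatrix R b).map
          (Ideal.Quotient.mk (maximalIdeal R))).mulVecLin) := by
  set bbar : Basis ι (R ⧸ maximalIdeal R) (T ⧸ (maximalIdeal R).map (algebraMap R T)) := basisQuotient b
  set Gbar := (Algebra.traceMatrix R b).map (Ideal.Quotient.mk (maximalIdeal R)) with hGbar
  have hGb : Algebra.traceMatrix (R ⧸ maximalIdeal R) bbar = Gbar := traceMatrix_basisQuotient b
  have hfin : Module.Finite (R ⧸ maximalIdeal R) (T ⧸ (maximalIdeal R).map (algebraMap R T)) := Module.Finite.of_basis bbar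
  set N : Submodule (R ⧸ maximalIdeal R) (T ⧸ (maximalIdeal R).map (algebraMap R T)) := (nilradical (T ⧸ (maximalIdeal R).map (algebraMap R T))).restrictScalars (R ⧸ maximalIdeal R)
  set f : (ι → (R ⧸ maximalIdeal R)) ≃ₗ[(R ⧸ maximalIdeal R)] (T ⧸ (maximalIdeal R).map (algebraMap R T)) := bbar.equivFun.symm
  -- the kernel maps into the nilradical
  have hker : (LinearMap.ker Gbar.mulVecLin).map (f : (ι → (R ⧸ maximalIdeal R)) →ₗ[(R ⧸ maximalIdeal R)] (T ⧸ (maximalIdeal R).map (algebraMap R T))) ≤ N := by
    rintro _ ⟨v, hv, rfl⟩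
    have hv' : Gbar *ᵥ v = 0 := by simpa using hv
    have hfv : f v = ∑ i, v i • bbar i := by
      simp [f, Basis.equivFun_symm_apply]
    change f v ∈ nilradical (T ⧸ (maximalIdeal R).map (algebraMap R T))
    rw [mem_nilradical]
    apply isNilpotent_of_forall_trace_mul_eq_zero (K := (R ⧸ maximalIdeal R))
    have h0 : ∀ j, Algebra.trace (R ⧸ maximalIdeal R) (T ⧸ (maximalIdeal R).map (algebraMap R T)) (f v * bbar j) = 0 := by
      intro j
      rw [hfv, trace_sum_smul_mul_basis, hGb, hv']
      rfl
    intro y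
    have := dvd_trace_mul_of_forall_basis bbar 0 (f v) (fun j => by rw [h0 j]) y
    exact zero_dvd_iff.1 this
  have h1 : finrank (R ⧸ maximalIdeal R) (LinearMap.ker Gbar.mulVecLin) ≤ finrank (R ⧸ maximalIdeal R) N := by
    have e := (Submodule.equivMapOfInjective (f : (ι → (R ⧸ maximalIdeal R)) →ₗ[(R ⧸ maximalIdeal R)] (T ⧸ (maximalIdeal R).map (algebraMap R T))) f.injective
      (LinearMap.ker Gbar.mulVecLin)).finrank_eq
    rw [e]
    exact Submodule.finrank_mono hker
  have h2 := LinearMap.finrank_range_add_finrank_ker Gbar.mulVecLin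
  have h3 : finrank (R ⧸ maximalIdeal R) (ι → (R ⧸ maximalIdeal R)) = Fintype.card ι := Module.finrank_fintype_fun_eq_card (R ⧸ maximalIdeal R)
  have h4 : finrank (R ⧸ maximalIdeal R) (T ⧸ (maximalIdeal R).map (algebraMap R T)) = Fintype.card ι := finrank_eq_card_basis bbar
  have h5 := Submodule.finrank_quotient_add_finrank N
  have h6 : finrank (R ⧸ maximalIdeal R) ((T ⧸ (maximalIdeal R).map (algebraMap R T)) ⧸ N) = finrank (R ⧸ maximalIdeal R) ((T ⧸ (maximalIdeal R).map (algebraMap R T)) ⧸ nilradical (T ⧸ (maximalIdeal R).map (algebraMap R T))) :=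
    (Submodule.Quotient.restrictScalarsEquiv (R ⧸ maximalIdeal R) (nilradical (T ⧸ (maximalIdeal R).map (algebraMap R T)))).finrank_eq
  omega

/-- (any characteristic) `rank Ḡ ≤ ρ`. -/
theorem finrank_range_le_redDim (b : Basis ι R T) :
    finrank (R ⧸ maximalIdeal R)
        (LinearMap.range ((Algebra.traceMatrix R b).map
          (Ideal.Quotient.mk (maximalIdeal R))).mulVecLin) ≤
      finrank (R ⧸ maximalIdeal R)
        ((T ⧸ (maximalIdeal R).map (algebraMap R T)) ⧸
          nilradical (T ⧸ (maximalIdeal R).map (algebraMap R T))) := by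
  set bbar : Basis ι (R ⧸ maximalIdeal R) (T ⧸ (maximalIdeal R).map (algebraMap R T)) := basisQuotient b
  set Gbar := (Algebra.traceMatrix R b).map (Ideal.Quotient.mk (maximalIdeal R)) with hGbar
  have hGb : Algebra.traceMatrix (R ⧸ maximalIdeal R) bbar = Gbar := traceMatrix_basisQuotient b
  have hfin : Module.Finite (R ⧸ maximalIdeal R) (T ⧸ (maximalIdeal R).map (algebraMap R T)) := Module.Finite.of_basis bbar
  set N : Submodule (R ⧸ maximalIdeal R) (T ⧸ (maximalIdeal R).map (algebraMap R T)) := (nilradical (T ⧸ (maximalIdeal R).map (algebraMap R T))).restrictScalars (R ⧸ maximalIdeal R)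
  set f : (ι → (R ⧸ maximalIdeal R)) ≃ₗ[(R ⧸ maximalIdeal R)] (T ⧸ (maximalIdeal R).map (algebraMap R T)) := bbar.equivFun.symm
  -- the nilradical maps into the kernel
  have hker : N ≤ (LinearMap.ker Gbar.mulVecLin).map (f : (ι → (R ⧸ maximalIdeal R)) →ₗ[(R ⧸ maximalIdeal R)] (T ⧸ (maximalIdeal R).map (algebraMap R T))) := by
    intro x hx
    have hx' : IsNilpotent x := (mem_nilradical).1 hx
    refine ⟨f.symm x, ?_, by simp⟩
    rw [SetLike.mem_coe, LinearMap.mem_ker, Matrix.mulVecLin_apply]
    ext j
    have hfv : x = ∑ i, (f.symm x) i • bbar i := by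
      conv_lhs => rw [← f.apply_symm_apply x]
      simp [f, Basis.equivFun_symm_apply]
    have h0 := trace_sum_smul_mul_basis bbar (f.symm x) j
    rw [← hfv, hGb] at h0
    rw [← h0]
    have hn : IsNilpotent (x * bbar j) := (Commute.all _ _).isNilpotent_mul_right hx'
    exact (Algebra.isNilpotent_trace_of_isNilpotent (R := (R ⧸ maximalIdeal R)) hn).eq_zero
  have h1 : finrank (R ⧸ maximalIdeal R) N ≤ finrank (R ⧸ maximalIdeal R) (LinearMap.ker Gbar.mulVecLin) := by
    have e := (Submodule.equivMapOfInjective (f : (ι → (R ⧸ maximalIdeal R)) →ₗ[(R ⧸ maximalIdeal R)] (T ⧸ (maximalIdeal R).map (algebraMap R T))) f.injective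
      (LinearMap.ker Gbar.mulVecLin)).finrank_eq
    rw [e]
    exact Submodule.finrank_mono hker
  have h2 := LinearMap.finrank_range_add_finrank_ker Gbar.mulVecLin
  have h3 : finrank (R ⧸ maximalIdeal R) (ι → (R ⧸ maximalIdeal R)) = Fintype.card ι := Module.finrank_fintype_fun_eq_card (R ⧸ maximalIdeal R)
  have h4 : finrank (R ⧸ maximalIdeal R) (T ⧸ (maximalIdeal R).map (algebraMap R T)) = Fintype.card ι := finrank_eq_card_basis bbar
  have h5 := Submodule.finrank_quotient_add_finrank N
  have h6 : finrank (R ⧸ maximalIdeal R) ((T ⧸ (maximalIdeal R).map (algebraMap R T)) ⧸ N) = finrank (R ⧸ maximalIdeal R) ((T ⧸ (maximalIdeal R).map (algebraMap R T)) ⧸ nilradical (T ⧸ (maximalIdeal R).map (algebraMap R T))) :=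
    (Submodule.Quotient.restrictScalarsEquiv (R ⧸ maximalIdeal R) (nilradical (T ⧸ (maximalIdeal R).map (algebraMap R T)))).finrank_eq
  omega

end Reduction

section Main

variable {R : Type*} [CommRing R] [IsDomain R] [IsDiscreteValuationRing R]
variable {T : Type*} [CommRing T] [Algebra R T] [Module.Free R T] [Module.Finite R T]
variable {ι : Type*} [Fintype ι] [DecidableEq ι]

/-- LOWER BOUND (any DVR, any finite free algebra): `n ≤ v(disc) + ρ`. -/
theorem le_discr_add_redDim (b : Basis ι R T) :
    (finrank R T : ℕ∞) ≤ IsDiscreteValuationRing.addVal R (Algebra.discr R b) +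
        (finrank (R ⧸ maximalIdeal R)
          ((T ⧸ (maximalIdeal R).map (algebraMap R T)) ⧸
            nilradical (T ⧸ (maximalIdeal R).map (algebraMap R T))) : ℕ∞) := by
  classical
  obtain ⟨π, hπ⟩ := IsDiscreteValuationRing.exists_irreducible R
  have hmax := hπ.maximalIdeal_eq
  by_cases hd0 : Algebra.discr R b = 0
  · rw [hd0, IsDiscreteValuationRing.addVal_zero]
    simp
  obtain ⟨v, u, hv⟩ := IsDiscreteValuationRing.eq_unit_mul_pow_irreducible hd0 hπ
  rw [IsDiscreteValuationRing.addVal_def _ u hπ v hv, finrank_eq_card_basis b]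
  have h1 := pow_finrank_dvd_det π hmax (Algebra.traceMatrix R b)
    (LinearMap.ker ((Algebra.traceMatrix R b).map
      (Ideal.Quotient.mk (maximalIdeal R))).mulVecLin) (fun s hs => by simpa using hs)
  rw [← Algebra.discr_def, hv] at h1
  have h2 : finrank (R ⧸ maximalIdeal R) (LinearMap.ker ((Algebra.traceMatrix R b).map
      (Ideal.Quotient.mk (maximalIdeal R))).mulVecLin) ≤ v :=
    (pow_dvd_pow_iff hπ.ne_zero hπ.not_isUnit).1 ((IsUnit.dvd_mul_left u.isUnit).1 h1)
  have h3 := finrank_range_le_redDim b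
  have h4 := LinearMap.finrank_range_add_finrank_ker ((Algebra.traceMatrix R b).map
      (Ideal.Quotient.mk (maximalIdeal R))).mulVecLin
  have h5 : finrank (R ⧸ maximalIdeal R) (ι → R ⧸ maximalIdeal R) = Fintype.card ι :=
    Module.finrank_fintype_fun_eq_card _
  have h6 : Fintype.card ι ≤ v + finrank (R ⧸ maximalIdeal R)
      ((T ⧸ (maximalIdeal R).map (algebraMap R T)) ⧸
        nilradical (T ⧸ (maximalIdeal R).map (algebraMap R T))) := by omega
  exact_mod_cast h6

variable [IsDomain T] [IsIntegrallyClosed T] [CharZero (R ⧸ maximalIdeal R)]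

/-- In the tame situation the discriminant is nonzero. -/
theorem discr_ne_zero_of_tame (b : Basis ι R T) : Algebra.discr R b ≠ 0 := by
  classical
  obtain ⟨π, hπ⟩ := IsDiscreteValuationRing.exists_irreducible R
  intro h0
  rw [Algebra.discr_def] at h0
  obtain ⟨v, hv0, hv⟩ := Matrix.exists_mulVec_eq_zero_iff.2 h0
  set a : T := ∑ i, v i • b i with ha
  have htr : ∀ c, Algebra.trace R T (a * c) = 0 := by
    intro c
    have := dvd_trace_mul_of_forall_basis b 0 a
      (fun j => by rw [ha, trace_sum_smul_mul_basis, hv]; simp) c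
    exact zero_dvd_iff.1 this
  have hdiv : ∀ k, algebraMap R T π ^ k ∣ a := fun k =>
    pow_dvd_of_pow_succ_dvd_trace π hπ k a (fun c => by rw [htr c]; exact dvd_zero _)
  obtain ⟨i, hi⟩ : ∃ i, v i ≠ 0 := by
    by_contra hcon
    exact hv0 (funext fun i => by
      by_contra hi
      exact hcon ⟨i, hi⟩)
  have hrepr : b.repr a i = v i := by
    rw [ha]
    simp [map_sum, Finsupp.single_apply]
  have hvi : ∀ k, π ^ k ∣ v i := by
    intro k
    obtain ⟨t, ht⟩ := hdiv k
    refine ⟨b.repr t i, ?_⟩
    rw [← hrepr, ht, ← map_pow, ← Algebra.smul_def, map_smul]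
    simp
  obtain ⟨m, u, hm⟩ := IsDiscreteValuationRing.eq_unit_mul_pow_irreducible hi hπ
  have h1 := hvi (m + 1)
  rw [hm] at h1
  have h2 := (pow_dvd_pow_iff hπ.ne_zero hπ.not_isUnit).1 ((IsUnit.dvd_mul_left u.isUnit).1 h1)
  omega

/-- `π · G⁻¹` is integral: there is `H` with `G H = H G = u π`. -/
theorem exists_mul_eq_smul_one (b : Basis ι R T) (π : R) (hπ : Irreducible π) (v : ℕ) (u : Rˣ)
    (hd : (Algebra.traceMatrix R b).det = u * π ^ (v + 1)) :
    ∃ H : Matrix ι ι R, Algebra.traceMatrix R b * H = ((u : R) * π) • (1 : Matrix ι ι R) ∧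
      H * Algebra.traceMatrix R b = ((u : R) * π) • (1 : Matrix ι ι R) := by
  classical
  have hGA := Matrix.mul_adjugate (Algebra.traceMatrix R b)
  have hAG := Matrix.adjugate_mul (Algebra.traceMatrix R b)
  have hcol : ∀ j, algebraMap R T π ^ v ∣
      ∑ i, (Algebra.traceMatrix R b).adjugate i j • b i := by
    intro j
    apply pow_dvd_of_pow_succ_dvd_trace π hπ v
    apply dvd_trace_mul_of_forall_basis b
    intro k
    rw [trace_sum_smul_mul_basis]
    have h1 : (Algebra.traceMatrix R b *ᵥ fun i => (Algebra.traceMatrix R b).adjugate i j) k =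
        (Algebra.traceMatrix R b * (Algebra.traceMatrix R b).adjugate) k j := by
      simp [Matrix.mul_apply, mulVec, dotProduct]
    rw [h1, hGA, hd, Matrix.smul_apply, Matrix.one_apply, smul_eq_mul]
    split_ifs
    · rw [mul_one]; exact Dvd.intro_left _ rfl
    · rw [mul_zero]; exact dvd_zero _
  choose t ht using hcol
  have hπv : π ^ v ≠ 0 := pow_ne_zero _ hπ.ne_zero
  have hA : ∀ i j, (Algebra.traceMatrix R b).adjugate i j = π ^ v * b.repr (t j) i := by
    intro i j
    have h1 : b.repr (∑ i, (Algebra.traceMatrix R b).adjugate i j • b i) i =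
        (Algebra.traceMatrix R b).adjugate i j := by
      simp [map_sum, Finsupp.single_apply]
    rw [← h1, ht j, ← map_pow, ← Algebra.smul_def, map_smul]
    simp
  refine ⟨Matrix.of fun i j => b.repr (t j) i, ?_, ?_⟩
  · ext i j
    apply mul_left_cancel₀ hπv
    have h2 := congrFun (congrFun hGA i) j
    rw [hd] at h2
    simp only [Matrix.mul_apply, Matrix.smul_apply, Matrix.one_apply, smul_eq_mul,
      Matrix.of_apply] at h2 ⊢
    rw [Finset.mul_sum]
    calc ∑ k, π ^ v * (Algebra.traceMatrix R b i k * b.repr (t j) k)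
        = ∑ k, Algebra.traceMatrix R b i k * (Algebra.traceMatrix R b).adjugate k j := by
          refine Finset.sum_congr rfl fun k _ => ?_
          rw [hA k j]; ring
      _ = ↑u * π ^ (v + 1) * (if i = j then 1 else 0) := h2
      _ = π ^ v * (↑u * π * (if i = j then 1 else 0)) := by ring
  · ext i j
    apply mul_left_cancel₀ hπv
    have h2 := congrFun (congrFun hAG i) j
    rw [hd] at h2
    simp only [Matrix.mul_apply, Matrix.smul_apply, Matrix.one_apply, smul_eq_mul,
      Matrix.of_apply] at h2 ⊢
    rw [Finset.mul_sum]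
    calc ∑ k, π ^ v * (b.repr (t k) i * Algebra.traceMatrix R b k j)
        = ∑ k, (Algebra.traceMatrix R b).adjugate i k * Algebra.traceMatrix R b k j := by
          refine Finset.sum_congr rfl fun k _ => ?_
          rw [hA i k]; ring
      _ = ↑u * π ^ (v + 1) * (if i = j then 1 else 0) := h2
      _ = π ^ v * (↑u * π * (if i = j then 1 else 0)) := by ring

/-- TAME, inequality needed by the normality criterion: `v(disc) + ρ ≤ n`. -/
theorem tame_discr_add_redDim_le (b : Basis ι R T) :
    IsDiscreteValuationRing.addVal R (Algebra.discr R b) +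
        (finrank (R ⧸ maximalIdeal R)
          ((T ⧸ (maximalIdeal R).map (algebraMap R T)) ⧸
            nilradical (T ⧸ (maximalIdeal R).map (algebraMap R T))) : ℕ∞)
      ≤ (finrank R T : ℕ∞) := by
  classical
  obtain ⟨π, hπ⟩ := IsDiscreteValuationRing.exists_irreducible R
  have hmax := hπ.maximalIdeal_eq
  have hd0 := discr_ne_zero_of_tame b
  obtain ⟨v, u, hv⟩ := IsDiscreteValuationRing.eq_unit_mul_pow_irreducible hd0 hπ
  rw [IsDiscreteValuationRing.addVal_def _ u hπ v hv, finrank_eq_card_basis b]
  have hA := redDim_le_finrank_range b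
  have h5 : finrank (R ⧸ maximalIdeal R) (ι → R ⧸ maximalIdeal R) = Fintype.card ι :=
    Module.finrank_fintype_fun_eq_card _
  have hS := Submodule.finrank_le (LinearMap.range ((Algebra.traceMatrix R b).map
      (Ideal.Quotient.mk (maximalIdeal R))).mulVecLin)
  suffices hmain : v + finrank (R ⧸ maximalIdeal R) (LinearMap.range ((Algebra.traceMatrix R b).map
      (Ideal.Quotient.mk (maximalIdeal R))).mulVecLin) ≤ Fintype.card ι by
    have h6 : v + finrank (R ⧸ maximalIdeal R)
        ((T ⧸ (maximalIdeal R).map (algebraMap R T)) ⧸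
          nilradical (T ⧸ (maximalIdeal R).map (algebraMap R T))) ≤ Fintype.card ι := by omega
    exact_mod_cast h6
  rcases Nat.eq_zero_or_pos v with hv0 | hvpos
  · omega
  · obtain ⟨v', rfl⟩ : ∃ v', v = v' + 1 := ⟨v - 1, by omega⟩
    rw [Algebra.discr_def] at hv
    obtain ⟨H, hGH, hHG⟩ := exists_mul_eq_smul_one b π hπ v' u hv
    have hzero : (((u : R) * π) • (1 : Matrix ι ι R)).map
        (Ideal.Quotient.mk (maximalIdeal R)) = 0 := by
      ext i j
      have hmem : (u : R) * π ∈ maximalIdeal R := by
        rw [hmax]; exact Ideal.mul_mem_left _ _ (Ideal.mem_span_singleton_self π)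
      simp only [Matrix.map_apply, Matrix.smul_apply, Matrix.one_apply, smul_eq_mul,
        Matrix.zero_apply]
      split_ifs
      · rw [mul_one]; exact Ideal.Quotient.eq_zero_iff_mem.2 hmem
      · rw [mul_zero, map_zero]
    have hkill : ∀ s ∈ LinearMap.range ((Algebra.traceMatrix R b).map
        (Ideal.Quotient.mk (maximalIdeal R))).mulVecLin,
        (H.map (Ideal.Quotient.mk (maximalIdeal R))) *ᵥ s = 0 := by
      rintro _ ⟨t, rfl⟩
      rw [Matrix.mulVecLin_apply, Matrix.mulVec_mulVec, ← Matrix.map_mul, hHG, hzero,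
        Matrix.zero_mulVec]
    have h1 := pow_finrank_dvd_det π hmax H _ hkill
    have h2 : (Algebra.traceMatrix R b).det * H.det = ((u : R) * π) ^ Fintype.card ι := by
      rw [← Matrix.det_mul, hGH, Matrix.det_smul, Matrix.det_one, mul_one]
    have h3 : π ^ (v' + 1 + finrank (R ⧸ maximalIdeal R)
        (LinearMap.range ((Algebra.traceMatrix R b).map
          (Ideal.Quotient.mk (maximalIdeal R))).mulVecLin)) ∣ π ^ Fintype.card ι := by
      have h4 : π ^ (v' + 1) * π ^ finrank (R ⧸ maximalIdeal R)
          (LinearMap.range ((Algebra.traceMatrix R b).map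
            (Ideal.Quotient.mk (maximalIdeal R))).mulVecLin) ∣
          (u : R) * π ^ (v' + 1) * H.det := by
        rw [mul_assoc]
        exact Dvd.dvd.mul_left (mul_dvd_mul_left _ h1) _
      rw [← hv, h2, mul_pow, ← pow_add] at h4
      exact (IsUnit.dvd_mul_left (u.isUnit.pow _)).1 h4
    exact (pow_dvd_pow_iff hπ.ne_zero hπ.not_isUnit).1 h3

/-- TAME, equality: `v(disc) + ρ = n`. -/
theorem tame_discr_add_redDim_eq (b : Basis ι R T) :
    IsDiscreteValuationRing.addVal R (Algebra.discr R b) +
        (finrank (R ⧸ maximalIdeal R)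
          ((T ⧸ (maximalIdeal R).map (algebraMap R T)) ⧸
            nilradical (T ⧸ (maximalIdeal R).map (algebraMap R T))) : ℕ∞)
      = (finrank R T : ℕ∞) :=
  le_antisymm (tame_discr_add_redDim_le b) (le_discr_add_redDim b)

end Main

end Fermat.Agent.S18.H153
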